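import Fermat.Agent.Subspace.UnitEquationNumberField
import Fermat.Agent.Subspace.ExponentialGrowth

/-!
# Tuples with differences dividing a given number

If all the differences `r i - r j` of integers of a number field are `S`-units, the ratios
`(r k - r i) / (r j - r i)` take finitely many values by the unit equation: at most boundedly many
such integers, and with the product of the differences and the sum given finitely many tuples
(Győry).
-/

set_option autoImplicit false

noncomputable section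

namespace FA.Gyory

open Finset NumberField IsDedekindDomain

variable {L : Type*} [Field L] [NumberField L]

/-- A unit outside of `S`. -/
def IsSUnit (S : Finset (HeightOneSpectrum (𝓞 L))) (x : L) : Prop :=
  x ≠ 0 ∧ ∀ v ∉ S, HeightOneSpectrum.adicAbv L v x = 1

variable {S : Finset (HeightOneSpectrum (𝓞 L))}

theorem IsSUnit.ne_zero {x : L} (h : IsSUnit S x) : x ≠ 0 := h.1

theorem IsSUnit.div {x y : L} (hx : IsSUnit S x) (hy : IsSUnit S y) : IsSUnit S (x / y) :=
  ⟨div_ne_zero hx.1 hy.1, fun v hv => by rw [map_div₀, hx.2 v hv, hy.2 v hv, div_one]⟩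

theorem IsSUnit.neg {x : L} (hx : IsSUnit S x) : IsSUnit S (-x) :=
  ⟨neg_ne_zero.2 hx.1, fun v hv => by rw [AbsoluteValue.map_neg, hx.2 v hv]⟩

variable (S) in
/-- **The ratios** of three numbers with differences units outside `S`. -/
theorem exists_ratio_set : ∃ E : Finset L, ∀ a b c : L, IsSUnit S (b - a) → IsSUnit S (c - a) →
    IsSUnit S (c - b) → (c - a) / (b - a) ∈ E := by
  classical
  refine ⟨(Subspace.finite_sUnit_equation S (n := 2) (fun _ : Fin 2 => (1 : L))
    fun _ => one_ne_zero).toFinset.image fun u => (u 0 : L), fun a b c hab hac hbc => ?_⟩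
  have hx := hac.div hab
  have hy := hbc.neg.div hab
  refine mem_image.2 ⟨![Units.mk0 _ hx.ne_zero, Units.mk0 _ hy.ne_zero],
    (Set.Finite.mem_toFinset _).2 ⟨fun i => Subspace.mem_unit_iff.2 ?_, ?_, fun T hT hT0 => ?_⟩,
    rfl⟩
  · fin_cases i
    exacts [hx.2, hy.2]
  · rw [Fin.sum_univ_two]
    simp only [Matrix.cons_val_zero, Matrix.cons_val_one, one_mul, Units.val_mk0]
    rw [← add_div, div_eq_one_iff_eq hab.ne_zero]
    ring
  · simp only [one_mul] at hT0
    have h1 : ∀ i : Fin 2, ((![Units.mk0 _ hx.ne_zero, Units.mk0 _ hy.ne_zero] i : Lˣ) : L) ≠ 0 :=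
      fun i => Units.ne_zero _
    rcases (by decide : ∀ T : Finset (Fin 2), T.Nonempty → T = {0} ∨ T = {1} ∨ T = univ) T hT with
      rfl | rfl | rfl
    · exact h1 0 (by simpa using hT0)
    · exact h1 1 (by simpa using hT0)
    · rw [Fin.sum_univ_two] at hT0
      simp only [Matrix.cons_val_zero, Matrix.cons_val_one, Units.val_mk0] at hT0
      rw [← add_div, div_eq_zero_iff, or_iff_left hab.ne_zero] at hT0
      exact hab.ne_zero (by linear_combination hT0)

/-- The differences of a tuple. -/
def diffProd {R : Type*} [CommRing R] {n : ℕ} (r : Fin n → R) : R :=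
  ∏ i, ∏ j ∈ univ.erase i, (r i - r j)

/-- Differences in a tuple with product of the differences `c` are units where `c` is one. -/
theorem isSUnit_sub {c : 𝓞 L} (hc : c ≠ 0)
    (hS : ∀ v ∉ S, HeightOneSpectrum.adicAbv L v (c : L) = 1) {n : ℕ} {r : Fin n → 𝓞 L}
    (hr : diffProd r = c) {i j : Fin n} (hij : i ≠ j) : IsSUnit S ((r i : L) - r j) := by
  classical
  obtain ⟨z, rfl⟩ : r i - r j ∣ c := hr ▸ (dvd_prod_of_mem (fun j => r i - r j)
    (mem_erase.2 ⟨hij.symm, mem_univ j⟩)).trans
      (dvd_prod_of_mem (fun i => ∏ j ∈ univ.erase i, (r i - r j)) (mem_univ i))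
  refine ⟨fun h => left_ne_zero_of_mul hc (RingOfIntegers.coe_injective ?_), fun v hv => ?_⟩
  · simpa [map_sub] using h
  have hle : ∀ y : 𝓞 L, HeightOneSpectrum.adicAbv L v (y : L) ≤ 1 := fun y => by
    rw [← FinitePlace.norm_embedding]
    exact FinitePlace.norm_le_one L v y
  have h1 := hS v hv
  simp only [map_mul] at h1
  rw [← map_sub]
  exact le_antisymm (hle _)
    (h1.symm.trans_le (mul_le_of_le_one_right (AbsoluteValue.nonneg _ _) (hle z)))

/-- **Boundedly many integers with differences dividing `c`.** -/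
theorem exists_card_bound {c : 𝓞 L} (hc : c ≠ 0) :
    ∃ B : ℕ, ∀ n (r : Fin n → 𝓞 L), diffProd r = c → n ≤ B := by
  classical
  obtain ⟨S, hS⟩ := Subspace.exists_primes_unit (fun _ : Unit => c) fun _ => hc
  obtain ⟨E, hE⟩ := exists_ratio_set S
  refine ⟨E.card + 2, fun n r hr => ?_⟩
  by_contra! hn
  have hu : ∀ i j : Fin n, i ≠ j → IsSUnit S ((r i : L) - r j) := fun i j hij =>
    isSUnit_sub hc (hS ()) hr hij
  set i₀ : Fin n := ⟨0, by omega⟩
  set i₁ : Fin n := ⟨1, by omega⟩
  have h01 : i₀ ≠ i₁ := by simp [i₀, i₁, Fin.ext_iff]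
  have h := card_le_card_of_injOn (s := univ.erase i₀ |>.erase i₁) (t := E)
    (fun j => ((r j : L) - r i₀) / ((r i₁ : L) - r i₀)) (fun j hj => by
      obtain ⟨hj1, hj'⟩ := mem_erase.1 hj
      exact hE _ _ _ (hu _ _ h01.symm) (hu _ _ (mem_erase.1 hj').1) (hu _ _ hj1))
    fun j _ k _ hjk => by
      by_contra hne
      simp only at hjk
      rw [div_left_inj' (hu _ _ h01.symm).ne_zero, sub_left_inj] at hjk
      exact (hu j k hne).ne_zero (sub_eq_zero.2 hjk)
  rw [card_erase_of_mem (mem_erase.2 ⟨h01.symm, mem_univ _⟩), card_erase_of_mem (mem_univ _),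
    card_univ, Fintype.card_fin] at h
  omega

/-- **Finitely many tuples** with given product of the differences and given sum. -/
theorem finite_tuples {c : 𝓞 L} (hc : c ≠ 0) (n : ℕ) (s : 𝓞 L) :
    {r : Fin n → 𝓞 L | diffProd r = c ∧ ∑ i, r i = s}.Finite := by
  classical
  rcases lt_or_ge n 2 with hn | hn
  · refine Set.Subsingleton.finite fun r hr r' hr' => funext fun i => ?_
    obtain rfl : n = 1 := by have := i.isLt; omega
    have h1 := hr.2.trans hr'.2.symm
    rw [Fin.sum_univ_one, Fin.sum_univ_one] at h1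
    rwa [show i = 0 from Subsingleton.elim _ _]
  obtain ⟨S, hS⟩ := Subspace.exists_primes_unit (fun _ : Unit => c) fun _ => hc
  obtain ⟨E, hE⟩ := exists_ratio_set S
  set i₀ : Fin n := ⟨0, by omega⟩
  set i₁ : Fin n := ⟨1, by omega⟩
  have h01 : i₀ ≠ i₁ := by simp [i₀, i₁, Fin.ext_iff]
  set M := ∑ i : Fin n, (univ.erase i).card with hM
  have hM0 : 0 < M := Nat.pos_iff_ne_zero.2 fun h => by
    have h1 := (sum_eq_zero_iff).1 h i₀ (mem_univ _)
    rw [card_erase_of_mem (mem_univ _), card_univ, Fintype.card_fin] at h1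
    omega
  set P := Fintype.piFinset fun _ : Fin n => insert 0 (insert 1 E)
  set scales : (Fin n → L) → Finset L := fun ρ =>
    (Polynomial.nthRoots M ((c : L) / diffProd ρ)).toFinset
  set G : (Fin n → L) × L → Fin n → L := fun p j =>
    ((s : L) - p.2 * ∑ i, p.1 i) / n + p.2 * p.1 j
  set T := P.biUnion fun ρ => (scales ρ).image fun t => G (ρ, t)
  refine Set.Finite.of_finite_image (f := fun r j => (r j : L)) (T.finite_toSet.subset ?_)
    fun r _ r' _ h => funext fun j => RingOfIntegers.coe_injective (congrFun h j)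
  rintro _ ⟨r, ⟨hr, hsum⟩, rfl⟩
  have hu : ∀ i j : Fin n, i ≠ j → IsSUnit S ((r i : L) - r j) := fun i j hij =>
    isSUnit_sub hc (hS ()) hr hij
  set t := (r i₁ : L) - r i₀
  have ht : t ≠ 0 := (hu _ _ h01.symm).ne_zero
  set ρ : Fin n → L := fun j => ((r j : L) - r i₀) / t
  have hρ : ρ ∈ P := Fintype.mem_piFinset.2 fun j => by
    by_cases hj0 : j = i₀
    · rw [show ρ j = 0 by simp [ρ, hj0]]
      exact mem_insert_self _ _
    by_cases hj1 : j = i₁
    · rw [show ρ j = 1 by simp only [ρ, hj1]; exact div_self ht]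
      exact mem_insert_of_mem (mem_insert_self _ _)
    exact mem_insert_of_mem (mem_insert_of_mem (hE _ _ _ (hu _ _ h01.symm) (hu _ _ hj0)
      (hu _ _ hj1)))
  have hprod : (c : L) = t ^ M * diffProd ρ := by
    rw [← hr, hM, ← prod_pow_eq_pow_sum]
    simp only [diffProd, map_prod, ← prod_mul_distrib, ← prod_const]
    refine prod_congr rfl fun i _ => prod_congr rfl fun j _ => ?_
    simp only [ρ, map_sub]
    field_simp
    ring
  refine mem_coe.2 (mem_biUnion.2 ⟨ρ, hρ, mem_image.2 ⟨t, ?_, funext fun j => ?_⟩⟩)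
  · refine Multiset.mem_toFinset.2 ((Polynomial.mem_nthRoots hM0).2 ?_)
    rw [hprod, mul_div_assoc, div_self, mul_one]
    intro h
    rw [h, mul_zero] at hprod
    exact hc (RingOfIntegers.coe_eq_zero_iff.1 hprod)
  · have hn0 : (n : L) ≠ 0 := Nat.cast_ne_zero.2 (by omega)
    have hs : (s : L) = n * (r i₀ : L) + t * ∑ i, ρ i := by
      rw [← hsum]
      simp only [map_sum, mul_sum]
      rw [show (n : L) * (r i₀ : L) = ∑ _i : Fin n, (r i₀ : L) by simp, ← sum_add_distrib]
      refine sum_congr rfl fun i _ => ?_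
      simp only [ρ]
      field_simp
      ring
    show ((s : L) - t * ∑ i, ρ i) / n + t * ρ j = r j
    rw [hs, add_sub_cancel_right, mul_div_cancel_left₀ _ hn0]
    simp only [ρ]
    field_simp
    ring

end FA.Gyory

end
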