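import Fermat.Agent.Gyory.Outside
import Fermat.Agent.Gyory.Tuples
import Mathlib.RingTheory.Polynomial.Resultant.Basic
import Mathlib.FieldTheory.PrimitiveElement

/-!
# Győry's theorem over the ring of `S`-integers

The roots of the monic polynomials of given degree with coefficients `S`-integers and given
discriminant up to an `S`-unit lie in one number field, their differences are units outside a
finite set there, so the ratios of the differences take finitely many values. Two polynomials with
the same ratios and the same Galois action on the labelled roots differ by `x ↦ ε x + a` with `ε`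
an `S`-unit and `a` an `S`-integer.
-/

set_option autoImplicit false

noncomputable section

open Polynomial NumberField IsDedekindDomain IntermediateField

local notation "Qb" => AlgebraicClosure ℚ
local notation "GQ" => AlgebraicClosure ℚ ≃ₐ[ℚ] AlgebraicClosure ℚ

namespace FA.Gyory

variable {K : Type*} [Field K] [NumberField K]

/-- `S`-integers are integral outside of some `N`. -/
theorem exists_nInt_integer {S : Set (HeightOneSpectrum (𝓞 K))} (hS : S.Finite) :
    ∃ N : ℕ, N ≠ 0 ∧ ∀ x ∈ S.integer K, NInt N x := by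
  classical
  set N := ∏ v ∈ hS.toFinset, Ideal.absNorm v.asIdeal
  refine ⟨N, Finset.prod_ne_zero_iff.2 fun v _ h => v.ne_bot (Ideal.absNorm_eq_zero_iff.1 h),
    fun x hx => ?_⟩
  have hle : ∀ v : HeightOneSpectrum (𝓞 K), v.valuation K (N : K) ≤ 1 := fun v => by
    rw [← map_natCast (algebraMap (𝓞 K) K)]
    exact v.valuation_le_one _
  have hex : ∀ v ∈ hS.toFinset, ∃ k : ℕ, v.valuation K ((N : K) ^ k * x) ≤ 1 := by
    intro v hv
    rcases eq_or_ne (v.valuation K x) 0 with h0 | h0
    · exact ⟨0, by simp [h0]⟩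
    have hlt : v.valuation K (N : K) < 1 := by
      rw [← map_natCast (algebraMap (𝓞 K) K), v.valuation_lt_one_iff_mem]
      have hd : (Ideal.absNorm v.asIdeal : 𝓞 K) ∈ v.asIdeal := Ideal.absNorm_mem _
      obtain ⟨c, hc⟩ := Finset.dvd_prod_of_mem (fun v => Ideal.absNorm v.asIdeal) hv
      rw [show N = Ideal.absNorm v.asIdeal * c from hc, Nat.cast_mul]
      exact Ideal.mul_mem_right _ _ hd
    obtain ⟨k, hk⟩ := exists_pow_lt₀ hlt (Units.mk0 _ h0)⁻¹
    refine ⟨k, ?_⟩
    rw [map_mul, map_pow]
    rw [Units.val_inv_eq_inv_val, Units.val_mk0] at hk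
    exact ((le_inv_mul_iff₀ (zero_lt_iff.2 h0)).1 (by rw [mul_one]; exact hk.le)).trans_eq'
      (mul_comm _ _)
  choose! k hk using hex
  refine ⟨hS.toFinset.sup k, ?_⟩
  obtain ⟨y, hy⟩ := HeightOneSpectrum.mem_integers_of_valuation_le_one K
    ((N : K) ^ hS.toFinset.sup k * x) fun v => by
    by_cases hv : v ∈ hS.toFinset
    · obtain ⟨c, hc⟩ := Nat.exists_eq_add_of_le (Finset.le_sup (f := k) hv)
      rw [hc, pow_add, mul_comm (_ ^ k v), mul_assoc, map_mul, map_pow]
      exact mul_le_one' (pow_le_one' (hle v) _) (hk v hv)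
    · rw [map_mul, map_pow]
      exact mul_le_one' (pow_le_one' (hle v) _) (hx v fun h => hv (hS.mem_toFinset.2 h))
  rw [← hy]
  exact y.isIntegral_coe

/-- Units outside of `N` are units outside a finite set of primes. -/
theorem exists_isSUnit (L : Type*) [Field L] [NumberField L] {N : ℕ} (hN : N ≠ 0) :
    ∃ S : Finset (HeightOneSpectrum (𝓞 L)), ∀ x : L, x ≠ 0 → NInt N x → NInt N x⁻¹ →
      IsSUnit S x := by
  obtain ⟨S, hS⟩ := Subspace.exists_primes_unit (K := L) (fun _ : Unit => (N : 𝓞 L))
    fun _ => Nat.cast_ne_zero.2 hN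
  refine ⟨S, fun x hx0 hx hx' => ⟨hx0, fun v hv => ?_⟩⟩
  have hN1 : HeightOneSpectrum.adicAbv L v (N : L) = 1 := by simpa using hS () v hv
  have key : ∀ y : L, NInt N y → HeightOneSpectrum.adicAbv L v y ≤ 1 := fun y ⟨k, hk⟩ => by
    have h := FinitePlace.norm_le_one L v ⟨_, hk⟩
    rwa [FinitePlace.norm_embedding, show algebraMap (𝓞 L) L ⟨_, hk⟩ = (N : L) ^ k * y from rfl,
      map_mul, map_pow, hN1, one_pow, one_mul] at h
  refine le_antisymm (key x hx) ?_
  have h := key _ hx'
  rw [map_inv₀, inv_le_one_iff₀] at h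
  exact h.resolve_left (not_le.2 (AbsoluteValue.pos _ hx0))

/-- The roots of a monic polynomial, labelled, and the product of their differences. -/
theorem exists_roots (φ : K →+* Qb) {f : K[X]} {n : ℕ} (hn : 0 < n) (hm : f.Monic)
    (hd : f.natDegree = n) (h0 : f.discr ≠ 0) :
    ∃ r : Fin n → Qb, Function.Injective r ∧ f.map φ = ∏ i, (X - C (r i)) ∧
      ∃ s : ℤ, s.natAbs = 1 ∧ diffProd r = (s : Qb) * φ f.discr := by
  classical
  subst hd
  set F := f.map φ
  have hres : ((F.roots.map F.derivative.eval).prod : Qb) =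
      ((-1 : ℤ) ^ (f.natDegree * (f.natDegree - 1) / 2) : ℤ) * φ f.discr := by
    have h := resultant_eq_prod_eval F F.derivative (f.natDegree - 1)
      ((natDegree_derivative_le _).trans (by rw [hm.natDegree_map])) (IsAlgClosed.splits _)
    rw [(hm.map _).leadingCoeff, one_pow, one_mul, hm.natDegree_map, derivative_map,
      resultant_map_map, resultant_deriv (natDegree_pos_iff_degree_pos.1 hn), hm.leadingCoeff,
      mul_one, map_mul, map_pow, map_neg, map_one] at h
    rw [derivative_map, ← h]
    push_cast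
    rfl
  have hnd : F.roots.Nodup := by
    rw [Multiset.nodup_iff_count_le_one]
    intro x
    by_contra! hx
    have hmem : x ∈ F.roots := Multiset.count_pos.1 (by omega)
    refine mul_ne_zero (by simp) ((_root_.map_ne_zero φ).2 h0)
      (hres.symm.trans (Multiset.prod_eq_zero (Multiset.mem_map.2 ⟨x, hmem, ?_⟩)))
    rw [(IsAlgClosed.splits _).eval_root_derivative (hm.map _) hmem]
    refine Multiset.prod_eq_zero (Multiset.mem_map.2 ⟨x, ?_, sub_self x⟩)
    rw [← Multiset.count_pos, Multiset.count_erase_self]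
    exact Nat.sub_pos_of_lt hx
  set R := F.roots.toFinset
  have hcard : R.card = f.natDegree := by
    rw [Multiset.toFinset_card_of_nodup hnd, ← (IsAlgClosed.splits F).natDegree_eq_card_roots,
      hm.natDegree_map]
  set e : Fin f.natDegree ≃ R := (finCongr hcard.symm).trans R.equivFin.symm
  have he : Function.Injective fun i => (e i : Qb) := Subtype.val_injective.comp e.injective
  have himg : R = Finset.univ.image fun i => (e i : Qb) := by
    ext x
    simp only [Finset.mem_image, Finset.mem_univ, true_and]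
    exact ⟨fun h => ⟨e.symm ⟨x, h⟩, by simp⟩, fun ⟨i, hi⟩ => hi ▸ (e i).2⟩
  have hsum : ∀ {β : Type} [CommMonoid β] (g : Qb → β),
      (F.roots.map g).prod = ∏ i, g (e i) := fun g => by
    rw [show (F.roots.map g).prod = ∏ x ∈ R, g x by
      rw [Finset.prod_eq_multiset_prod, Multiset.toFinset_val, hnd.dedup],
      Equiv.prod_comp e (fun y : R => g y), Finset.prod_coe_sort R g]
  refine ⟨fun i => (e i : Qb), he, ?_, _, by simp [Int.natAbs_pow], Eq.trans ?_ hres⟩
  · conv_lhs => rw [(IsAlgClosed.splits F).eq_prod_roots_of_monic (hm.map _)]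
    exact hsum _
  · rw [hsum]
    refine Finset.prod_congr rfl fun i _ => ?_
    rw [(IsAlgClosed.splits _).eval_root_derivative (hm.map _)
      (Multiset.mem_toFinset.1 (e i).2)]
    have herase : (F.roots.erase (e i : Qb)) =
        ((Finset.univ.erase i).image fun j => (e j : Qb)).val := by
      rw [Finset.image_erase he, ← himg, Finset.erase_val, Multiset.toFinset_val, hnd.dedup]
    rw [herase, ← Finset.prod_eq_multiset_prod, Finset.prod_image fun i _ j _ h => he h]

/-- The relation `f x = ε ^ n * g ((x - a) / ε)`. -/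
def SEquiv (S : Set (HeightOneSpectrum (𝓞 K))) (n : ℕ) (f g : K[X]) : Prop :=
  ∃ ε ∈ S.unit K, ∃ a ∈ S.integer K, f = C ((ε : K) ^ n) * g.comp (C (ε : K)⁻¹ * (X - C a))

/-- An element of `K` is a fixed number of the automorphisms fixing `K`. -/
theorem mem_range_of_fixed (φ : K →ₐ[ℚ] Qb) {x : Qb}
    (h : ∀ σ : GQ, (∀ k, σ (φ k) = φ k) → σ x = x) : ∃ k, φ k = x := by
  have hx : x ∈ IntermediateField.fixedField φ.fieldRange.fixingSubgroup := fun ⟨σ, hσ⟩ =>
    h σ fun k => (IntermediateField.mem_fixingSubgroup_iff _ σ).1 hσ _ ⟨k, rfl⟩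
  rwa [InfiniteGalois.fixedField_fixingSubgroup] at hx

/-- The integrality of a number of `K` related to a root and a multiple of a root. -/
theorem mem_integer_of_roots {S : Set (HeightOneSpectrum (𝓞 K))} (φ : K →ₐ[ℚ] Qb) {f g : K[X]}
    (hf : f.Monic) (hfc : ∀ i, f.coeff i ∈ S.integer K) (hg : g.Monic)
    (hgc : ∀ i, g.coeff i ∈ S.integer K) {t a : K} (ht : t ∈ S.integer K) {x y : Qb}
    (hx : (f.map φ.toRingHom).IsRoot x) (hy : (g.map φ.toRingHom).IsRoot y)
    (hxy : x = φ t * y + φ a) : a ∈ S.integer K := by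
  intro v hv
  set V := (v.valuation K).valuationSubring
  letI : Algebra V Qb := (φ.toRingHom.comp V.subtype).toAlgebra
  have key : ∀ {p : K[X]}, p.Monic → (∀ i, p.coeff i ∈ S.integer K) → ∀ {z : Qb},
      (p.map φ.toRingHom).IsRoot z → IsIntegral V z := by
    intro p hp hpc z hz
    have hl : p ∈ lifts V.subtype := (lifts_iff_coeff_lifts p).2 fun i => ⟨⟨_, hpc i v hv⟩, rfl⟩
    obtain ⟨q, hq, -, hqm⟩ := lifts_and_degree_eq_and_monic hl hp
    refine ⟨q, hqm, ?_⟩
    rw [← eval_map, RingHom.algebraMap_toAlgebra, ← Polynomial.map_map, hq]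
    exact hz
  have h1 : IsIntegral V (φ a) := by
    rw [show φ a = x - φ t * y by rw [hxy]; ring]
    exact (key hf hfc hx).sub
      ((isIntegral_algebraMap (x := (⟨t, ht v hv⟩ : V))).mul (key hg hgc hy))
  have h2 : IsIntegral V a := by
    obtain ⟨q, hq, hq0⟩ := h1
    refine ⟨q, hq, φ.toRingHom.injective ?_⟩
    rw [hom_eval₂, map_zero, ← hq0]
    rfl
  obtain ⟨z, hz⟩ := (IsIntegrallyClosed.isIntegral_iff (R := V) (K := K)).1 h2
  rw [← hz]
  exact z.2

end FA.Gyory

end
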