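import Fermat.Agent.Gyory.SIntegral

/-!
# Finitely many classes of monic polynomials over the `S`-integers of given discriminant

By Hermite and Minkowski the roots lie in one number field `L`; the classes are counted by the
ratios of the differences of the labelled roots and by the permutations induced by the embeddings
of `L` (Győry).
-/

set_option autoImplicit false
set_option linter.style.haveILetI false

noncomputable section

open Polynomial NumberField IsDedekindDomain IntermediateField

local notation "Qb" => AlgebraicClosure ℚ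
local notation "GQ" => AlgebraicClosure ℚ ≃ₐ[ℚ] AlgebraicClosure ℚ

namespace FA.Gyory

variable {K : Type*} [Field K] [NumberField K]

/-- Monic, of degree `n`, with `S`-integral coefficients and discriminant `D` up to an
`S`-unit. -/
def Admissible (S : Set (HeightOneSpectrum (𝓞 K))) (n : ℕ) (D : K) (f : K[X]) : Prop :=
  f.Monic ∧ f.natDegree = n ∧ (∀ i, f.coeff i ∈ S.integer K) ∧
    ∃ u ∈ S.unit K, f.discr = (u : K) * D

variable {S : Set (HeightOneSpectrum (𝓞 K))} {n : ℕ} {D : K}

theorem Admissible.discr_ne_zero (hD : D ≠ 0) {f : K[X]} (hf : Admissible S n D f) :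
    f.discr ≠ 0 := by
  obtain ⟨-, -, -, u, -, hu⟩ := hf
  exact hu ▸ mul_ne_zero u.ne_zero hD

/-- **One field for all the roots**, in which their differences are units outside of one
finite set of primes, and whose Galois action is by permutations of them. -/
theorem exists_roots_field (φ : K →ₐ[ℚ] Qb) (hS : S.Finite) (hn : 0 < n) (hD : D ≠ 0) :
    ∃ (L : IntermediateField ℚ Qb) (_ : FiniteDimensional ℚ L) (N : ℕ), N ≠ 0 ∧
      ∀ f, Admissible S n D f → ∃ r : Fin n → L, Function.Injective r ∧
        f.map φ.toRingHom = ∏ i, (X - C (r i : Qb)) ∧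
        (∃ s : ℤ, s.natAbs = 1 ∧
          diffProd (fun i => (r i : Qb)) = (s : Qb) * φ f.discr) ∧
        ∀ i j, i ≠ j → NInt N (r j - r i) ∧ NInt N ((r j - r i : L))⁻¹ := by
  classical
  obtain ⟨N₁, hN₁, hint₁⟩ := exists_nInt_integer hS
  obtain ⟨N₂, hN₂, hint₂⟩ := exists_nInt (F := K) {D⁻¹}
  set pb := Field.powerBasisOfFiniteOfSeparable ℚ K
  set γ := pb.gen
  set Rγ : Finset Qb := ((minpoly ℚ γ).map (algebraMap ℚ Qb)).roots.toFinset
  obtain ⟨N₃, hN₃, hint₃⟩ :=
    exists_nInt (F := Qb) (Rγ ∪ (Rγ ×ˢ Rγ).image fun p => (p.2 - p.1)⁻¹)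
  set N := N₁ * N₂ * N₃
  have h1 : ∀ x ∈ S.integer K, NInt N x := fun x hx =>
    (hint₁ x hx).mono (dvd_mul_of_dvd_left (dvd_mul_right _ _) _)
  have h2 : NInt N D⁻¹ := (hint₂ _ (Finset.mem_singleton_self _)).mono
    (dvd_mul_of_dvd_left (dvd_mul_left _ _) _)
  have hsepγ : Separated N Rγ := fun x hx =>
    ⟨(hint₃ x (Finset.mem_union_left _ hx)).mono (dvd_mul_left _ _), fun y hy _ =>
      (hint₃ _ (Finset.mem_union_right _ (Finset.mem_image.2
        ⟨(x, y), Finset.mem_product.2 ⟨hx, hy⟩, rfl⟩))).mono (dvd_mul_left _ _)⟩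
  have hγroot : ∀ ψ : K →ₐ[ℚ] Qb, ψ γ ∈ Rγ := fun ψ => by
    rw [Multiset.mem_toFinset, mem_roots', IsRoot.def, eval_map, ← aeval_def, aeval_algHom_apply,
      minpoly.aeval, map_zero]
    exact ⟨((minpoly.monic (Algebra.IsIntegral.isIntegral γ)).map _).ne_zero, rfl⟩
  have hfix : ∀ q : ℕ, q.Prime → q ∉ N.primeFactors → ∀ A : ValuationSubring Qb,
      A.LiesOverPrime q → ∀ σ ∈ A.inertiaSubgroupIn ℚ, ∀ k, σ (φ k) = φ k := by
    intro q hq hqN A hA σ hσ k
    have hqN' : ¬q ∣ N := fun h => hqN (Nat.mem_primeFactors.2 ⟨hq, h,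
      mul_ne_zero (mul_ne_zero hN₁ hN₂) hN₃⟩)
    have h := inertia_fix hsepγ hq hqN' hA hσ (hγroot φ) (hγroot (σ.toAlgHom.comp φ))
    have heq : σ.toAlgHom.comp φ = φ := pb.algHom_ext h
    exact AlgHom.congr_fun heq k
  obtain ⟨L, hL, hLE⟩ := exists_field_above N (Module.finrank ℚ K * n)
  refine ⟨L, hL, N, mul_ne_zero (mul_ne_zero hN₁ hN₂) hN₃, fun f hf => ?_⟩
  obtain ⟨hm, hdeg, hc, u, hu, hdisc⟩ := hf
  obtain ⟨r, hr, hmap, s, hs, hdiff⟩ := exists_roots φ.toRingHom hn hm hdeg
    (Admissible.discr_ne_zero hD ⟨hm, hdeg, hc, u, hu, hdisc⟩)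
  have hroot : ∀ i, (f.map φ.toRingHom).IsRoot (r i) := fun i => by
    rw [hmap, IsRoot.def, eval_prod]
    exact Finset.prod_eq_zero (Finset.mem_univ i) (by simp)
  have hrint : ∀ i, NInt N (r i) := fun i => NInt.of_root (hm.map _) (fun j => by
    rw [coeff_map]
    exact (nInt_map_iff φ.toRingHom).2 (h1 _ (hc j))) (hroot i)
  have hinv : ∀ i j, j ≠ i → NInt N (r i - r j)⁻¹ := fun i j hji => by
    have hs' : ((s : Qb)) * s = 1 := by
      rcases Int.natAbs_eq_iff.1 hs with h | h <;> simp [h]
    set z := (∏ b ∈ (Finset.univ.erase i).erase j, (r i - r b)) *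
      ∏ a ∈ Finset.univ.erase i, ∏ b ∈ Finset.univ.erase a, (r a - r b)
    have hz : diffProd r = (r i - r j) * z := by
      rw [diffProd, ← Finset.mul_prod_erase _ _ (Finset.mem_univ i),
        ← Finset.mul_prod_erase _ _ (Finset.mem_erase.2 ⟨hji, Finset.mem_univ j⟩), mul_assoc]
    have hd0 : φ f.discr ≠ 0 := (map_ne_zero φ).2 (hdisc ▸ mul_ne_zero u.ne_zero hD)
    have hval : (r i - r j)⁻¹ = z * ((s : Qb) * φ (((u⁻¹ : Kˣ) : K) * D⁻¹)) := by
      refine inv_eq_of_mul_eq_one_right ?_
      rw [← mul_assoc, ← hz, hdiff, Units.val_inv_eq_inv_val, ← mul_inv, ← hdisc, map_inv₀]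
      rw [mul_mul_mul_comm, hs', one_mul]
      exact mul_inv_cancel₀ hd0
    rw [hval]
    refine ((NInt.prod _ fun b _ => (hrint i).sub (hrint b)).mul
      (NInt.prod _ fun a _ => NInt.prod _ fun b _ => (hrint a).sub (hrint b))).mul
      ((NInt.of_isIntegral (by rw [← eq_intCast (algebraMap ℤ Qb)]
                               exact isIntegral_algebraMap)).mul
        ((nInt_map_iff φ.toRingHom).2 ((h1 _ ?_).mul h2)))
    exact fun v hv => ((S.unit K).inv_mem hu v hv).le
  have hsep : Separated N (Finset.univ.image r) := by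
    intro x hx
    obtain ⟨i, -, rfl⟩ := Finset.mem_image.1 hx
    refine ⟨hrint i, fun y hy hyx => ?_⟩
    obtain ⟨j, -, rfl⟩ := Finset.mem_image.1 hy
    exact hinv j i fun h => hyx (h ▸ rfl)
  have hmemL : ∀ i, r i ∈ L := fun i => by
    letI : Algebra K Qb := φ.toRingHom.toAlgebra
    haveI : IsScalarTower ℚ K Qb := IsScalarTower.of_algebraMap_eq fun q => (φ.commutes q).symm
    have hintK : IsIntegral K (r i) := ⟨f, hm, by
      rw [← eval_map]
      exact hroot i⟩
    set E' : IntermediateField ℚ Qb := (IntermediateField.adjoin K {r i}).restrictScalars ℚ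
    haveI : FiniteDimensional K (IntermediateField.adjoin K {r i}) :=
      IntermediateField.adjoin.finiteDimensional hintK
    haveI : FiniteDimensional ℚ E' :=
      FiniteDimensional.trans ℚ K (IntermediateField.adjoin K {r i})
    set E : IntermediateField ℚ Qb := IntermediateField.adjoin ℚ (insert (r i) (Set.range φ))
    have hle : E ≤ E' := IntermediateField.adjoin_le_iff.2 fun y hy => by
      rcases hy with rfl | ⟨k, rfl⟩
      · exact IntermediateField.mem_adjoin_simple_self K _
      · exact (IntermediateField.adjoin K {r i}).algebraMap_mem k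
    haveI : FiniteDimensional ℚ E := .of_injective (IntermediateField.inclusion hle).toLinearMap
      (IntermediateField.inclusion hle).injective
    have hdeg' : Module.finrank ℚ E ≤ Module.finrank ℚ K * n := by
      refine ((IntermediateField.inclusion hle).toLinearMap.finrank_le_finrank_of_injective
        (IntermediateField.inclusion hle).injective).trans ?_
      rw [show Module.finrank ℚ E' = Module.finrank ℚ (IntermediateField.adjoin K {r i}) from rfl,
        ← Module.finrank_mul_finrank ℚ K (IntermediateField.adjoin K {r i}),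
        IntermediateField.adjoin.finrank hintK]
      refine Nat.mul_le_mul_left _ (hdeg ▸ natDegree_le_of_dvd (minpoly.dvd K _ ?_) hm.ne_zero)
      rw [aeval_def, ← eval_map]
      exact hroot i
    refine hLE E inferInstance hdeg' (fun q hq hqN A hA σ hσ => ?_)
      (IntermediateField.subset_adjoin _ _ (Set.mem_insert _ _))
    rw [IntermediateField.mem_fixingSubgroup_iff]
    refine (IntermediateField.forall_mem_adjoin_smul_eq_self_iff ℚ σ).2 fun y hy => ?_
    have hk := hfix q hq hqN A hA σ hσ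
    rcases hy with rfl | ⟨k, rfl⟩
    · refine inertia_fix hsep hq (fun h => hqN (Nat.mem_primeFactors.2 ⟨hq, h,
        mul_ne_zero (mul_ne_zero hN₁ hN₂) hN₃⟩)) hA hσ
        (Finset.mem_image_of_mem r (Finset.mem_univ i)) ?_
      have hev : ((f.map φ.toRingHom).map σ.toRingHom).eval (σ (r i)) = 0 := by
        rw [eval_map]
        exact (eval₂_at_apply σ.toRingHom _).trans (by rw [hroot i, map_zero])
      rw [Polynomial.map_map, show σ.toRingHom.comp φ.toRingHom = φ.toRingHom from RingHom.ext hk,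
        hmap, eval_prod, Finset.prod_eq_zero_iff] at hev
      obtain ⟨j, -, hj⟩ := hev
      rw [eval_sub, eval_X, eval_C, sub_eq_zero] at hj
      exact hj ▸ Finset.mem_image_of_mem r (Finset.mem_univ j)
    · exact hk k
  refine ⟨fun i => ⟨r i, hmemL i⟩, fun i j h => hr (congrArg Subtype.val h), hmap,
    ⟨s, hs, hdiff⟩, fun i j hij => ?_⟩
  refine ⟨(nInt_map_iff L.val.toRingHom).1 ?_, (nInt_map_iff L.val.toRingHom).1 ?_⟩
  · exact (hrint j).sub (hrint i)
  · simpa using hinv j i hij

end FA.Gyory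

end
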