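import Fermat.Agent.Gyory.Tuples
import Fermat.Agent.Thirteen.FieldDiscr
import Mathlib.FieldTheory.IntermediateField.Adjoin.Basic
import Mathlib.NumberTheory.NumberField.Discriminant.Basic
import Mathlib.RingTheory.Polynomial.Resultant.Basic

/-!
# Monic integer polynomials of given discriminant

Every root of a monic polynomial generates a field whose discriminant is at most that of the
polynomial, so by Hermite's theorem all roots lie in one number field; there the tuples of roots
are finitely many up to translation (Győry). So are the integers of a number field of bounded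
discriminant or index.
-/

set_option autoImplicit false
set_option linter.style.haveILetI false

noncomputable section

namespace FA.Gyory

open Finset Polynomial NumberField IntermediateField

theorem prod_map_roots {α β : Type*} [DecidableEq α] [CommMonoid β] {s : Multiset α}
    (h : s.Nodup) (f : α → β) : (s.map f).prod = ∏ x ∈ s.toFinset, f x := by
  rw [prod_eq_multiset_prod, Multiset.toFinset_val, h.dedup]

/-- The product of the values of the derivative at the roots: the discriminant up to sign. -/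
def rootProd (f : ℤ[X]) : ℤ := f.resultant f.derivative f.natDegree (f.natDegree - 1)

theorem natAbs_rootProd {f : ℤ[X]} (hm : f.Monic) : (rootProd f).natAbs = f.discr.natAbs := by
  rcases Nat.eq_zero_or_pos f.natDegree with h | h
  · obtain rfl := hm.natDegree_eq_zero.1 h
    rw [show (1 : ℤ[X]) = C 1 from C_1.symm, discr_C]
    simp [rootProd]
  · rw [rootProd, resultant_deriv (natDegree_pos_iff_degree_pos.1 h), hm.leadingCoeff, mul_one,
      Int.natAbs_mul, Int.natAbs_pow]
    simp

theorem cast_rootProd {E : Type*} [Field E] [IsAlgClosed E] {f : ℤ[X]} (hm : f.Monic) :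
    (rootProd f : E) = ((f.map (Int.castRingHom E)).roots.map
      (f.map (Int.castRingHom E)).derivative.eval).prod := by
  have h := resultant_eq_prod_eval (f.map (Int.castRingHom E))
    (f.map (Int.castRingHom E)).derivative (f.natDegree - 1)
    ((natDegree_derivative_le _).trans (by rw [hm.natDegree_map])) (IsAlgClosed.splits _)
  rw [(hm.map _).leadingCoeff, one_pow, one_mul, hm.natDegree_map, derivative_map,
    resultant_map_map] at h
  rw [derivative_map]
  exact h

theorem nodup_roots_of_rootProd {E : Type*} [Field E] [IsAlgClosed E] [CharZero E] {f : ℤ[X]}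
    (hm : f.Monic) (h0 : rootProd f ≠ 0) : (f.map (Int.castRingHom E)).roots.Nodup := by
  classical
  rw [Multiset.nodup_iff_count_le_one]
  intro x
  by_contra! hx
  have hmem : x ∈ (f.map (Int.castRingHom E)).roots := Multiset.count_pos.1 (by omega)
  refine Int.cast_ne_zero.2 h0 ((cast_rootProd (E := E) hm).trans (Multiset.prod_eq_zero
    (Multiset.mem_map.2 ⟨x, hmem, ?_⟩)))
  rw [(IsAlgClosed.splits _).eval_root_derivative (hm.map _) hmem]
  refine Multiset.prod_eq_zero (Multiset.mem_map.2 ⟨x, ?_, sub_self x⟩)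
  rw [← Multiset.count_pos, Multiset.count_erase_self]
  omega

/-- The integral values of an integer polynomial. -/
theorem isIntegral_eval {x : ℂ} (hx : IsIntegral ℤ x) (P : ℤ[X]) :
    IsIntegral ℤ ((P.map (Int.castRingHom ℂ)).eval x) := by
  rw [show (P.map (Int.castRingHom ℂ)).eval x = aeval x P by
    rw [eval_map, aeval_def, algebraMap_int_eq]]
  have h := aeval_algHom_apply (integralClosure ℤ ℂ).val ⟨x, hx⟩ P
  rw [show (integralClosure ℤ ℂ).val ⟨x, hx⟩ = x from rfl] at h
  rw [h]
  exact (aeval (⟨x, hx⟩ : integralClosure ℤ ℂ) P).2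

theorem isIntegral_of_mem_roots {x : ℂ} {f : ℤ[X]} (hm : f.Monic)
    (hx : x ∈ (f.map (Int.castRingHom ℂ)).roots) : IsIntegral ℤ x :=
  ⟨f, hm, by
    rw [algebraMap_int_eq, ← eval_map]
    exact (mem_roots'.1 hx).2⟩

/-- The minimal polynomial of a generator: its root product is the discriminant up to sign. -/
theorem abs_rootProd_minpoly {K : Type*} [Field K] [NumberField K] (pb : PowerBasis ℚ K)
    (hint : IsIntegral ℤ pb.gen) :
    |(rootProd (minpoly ℤ pb.gen) : ℚ)| = |Algebra.discr ℚ pb.basis| := by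
  classical
  set G := minpoly ℤ pb.gen
  have hG : minpoly ℚ pb.gen = G.map (algebraMap ℤ ℚ) :=
    minpoly.isIntegrallyClosed_eq_field_fractions' ℚ hint
  have hcomp : (G.map (algebraMap ℤ ℚ)).map (algebraMap ℚ ℂ) = G.map (Int.castRingHom ℂ) := by
    rw [Polynomial.map_map]
    congr 1
  have key : (rootProd G : ℚ) = Algebra.norm ℚ (aeval pb.gen (minpoly ℚ pb.gen).derivative) := by
    refine (algebraMap ℚ ℂ).injective ?_
    rw [map_intCast, cast_rootProd (minpoly.monic hint), Algebra.norm_eq_prod_embeddings]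
    have hnd : (G.map (Int.castRingHom ℂ)).roots.Nodup := by
      rw [← hcomp, ← hG]
      exact nodup_roots (Separable.map (Algebra.IsSeparable.isSeparable ℚ pb.gen))
    rw [← Finset.prod_mk _ hnd]
    refine (Finset.prod_bij' (fun σ _ => σ pb.gen)
      (fun x hx => pb.lift x ?_) (fun σ _ => ?_) (fun x _ => mem_univ _)
      (fun σ _ => pb.algHom_ext (pb.lift_gen _ _)) (fun x _ => pb.lift_gen _ _)
      fun σ _ => ?_).symm
    · have h := (mem_roots'.1 hx).2
      rw [aeval_def, ← eval_map, hG, hcomp]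
      exact h
    · refine (Finset.mem_mk).2 (mem_roots'.2 ⟨((minpoly.monic hint).map _).ne_zero, ?_⟩)
      rw [← hcomp, ← hG, IsRoot.def, eval_map, ← aeval_def, aeval_algHom_apply, minpoly.aeval,
        map_zero]
    · rw [← aeval_algHom_apply, aeval_def, ← eval_map, ← derivative_map, hG, hcomp]
  rw [Algebra.discr_powerBasis_eq_norm, key, abs_mul, abs_neg_one_pow, one_mul]

/-- **The field of a root** has discriminant at most that of the polynomial. -/
theorem abs_discr_adjoin_le {f : ℤ[X]} (hm : f.Monic) (h0 : rootProd f ≠ 0) {θ : ℂ}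
    (hθ : θ ∈ (f.map (Int.castRingHom ℂ)).roots) :
    ∃ _ : FiniteDimensional ℚ ℚ⟮θ⟯,
      haveI : NumberField ℚ⟮θ⟯ := @NumberField.mk _ _ inferInstance inferInstance
      |discr ℚ⟮θ⟯| ≤ |rootProd f| := by
  classical
  have hint : IsIntegral ℤ θ := isIntegral_of_mem_roots hm hθ
  have hQ : IsIntegral ℚ θ := hint.tower_top
  haveI : FiniteDimensional ℚ ℚ⟮θ⟯ := IntermediateField.adjoin.finiteDimensional hQ
  haveI : NumberField ℚ⟮θ⟯ := @NumberField.mk _ _ inferInstance inferInstance
  refine ⟨inferInstance, ?_⟩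
  set pb := IntermediateField.adjoin.powerBasis hQ
  have hgen : algebraMap ℚ⟮θ⟯ ℂ pb.gen = θ := rfl
  have hpint : IsIntegral ℤ pb.gen := by
    have h := (isIntegral_algebraMap_iff (R := ℤ) (A := ℚ⟮θ⟯) (B := ℂ) (x := pb.gen)
      (algebraMap ℚ⟮θ⟯ ℂ).injective).1 (hgen.symm ▸ hint)
    exact h
  set G := minpoly ℤ pb.gen
  have hG : minpoly ℤ θ = G := by
    rw [← hgen, minpoly.algebraMap_eq (algebraMap ℚ⟮θ⟯ ℂ).injective]
  obtain ⟨H, hH⟩ : G ∣ f := hG ▸ minpoly.isIntegrallyClosed_dvd hint (by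
    rw [aeval_def, algebraMap_int_eq, ← eval_map]
    exact (mem_roots'.1 hθ).2)
  have hmG : G.Monic := minpoly.monic hpint
  set F := f.map (Int.castRingHom ℂ)
  set G' := G.map (Int.castRingHom ℂ)
  have hsub : G'.roots.toFinset ⊆ F.roots.toFinset := fun x hx => by
    rw [Multiset.mem_toFinset, mem_roots'] at hx ⊢
    refine ⟨(hm.map _).ne_zero, ?_⟩
    simp only [F, hH, Polynomial.map_mul, IsRoot.def, eval_mul]
    rw [show G'.eval x = 0 from hx.2, zero_mul]
  have hFnd := nodup_roots_of_rootProd (E := ℂ) hm h0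
  have hGnd : G'.roots.Nodup := Multiset.nodup_of_le (roots.le_of_dvd (hm.map _).ne_zero
    (by rw [hH, Polynomial.map_mul]; exact dvd_mul_right _ _)) hFnd
  set z := (∏ x ∈ G'.roots.toFinset, (H.map (Int.castRingHom ℂ)).eval x) *
    ∏ x ∈ F.roots.toFinset \ G'.roots.toFinset, F.derivative.eval x
  have hz : (rootProd f : ℂ) = (rootProd G : ℂ) * z := by
    rw [cast_rootProd hm, cast_rootProd hmG, prod_map_roots hFnd,
      prod_map_roots hGnd, ← prod_sdiff hsub, ← mul_assoc,
      ← prod_mul_distrib, mul_comm]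
    refine congrArg (· * _) (prod_congr rfl fun x hx => ?_)
    rw [Multiset.mem_toFinset, mem_roots'] at hx
    simp only [F, hH, Polynomial.map_mul, derivative_mul, eval_add, eval_mul]
    rw [show (G.map (Int.castRingHom ℂ)).eval x = 0 from hx.2, zero_mul, add_zero]
  have hzint : IsIntegral ℤ z := by
    refine (IsIntegral.prod _ fun x hx => ?_).mul (IsIntegral.prod _ fun x hx => ?_)
    · exact isIntegral_eval (isIntegral_of_mem_roots hm (Multiset.mem_toFinset.1 (hsub hx))) H
    · rw [derivative_map]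
      exact isIntegral_eval
        (isIntegral_of_mem_roots hm (Multiset.mem_toFinset.1 (mem_sdiff.1 hx).1)) _
  have hG0 : rootProd G ≠ 0 := fun h => h0 (by
    rw [h, Int.cast_zero, zero_mul] at hz
    exact_mod_cast hz)
  obtain ⟨k, hk⟩ : ∃ k : ℤ, (k : ℚ) = (rootProd f : ℚ) / rootProd G := by
    refine (IsIntegrallyClosed.isIntegral_iff (R := ℤ) (K := ℚ)).1
      ((isIntegral_algebraMap_iff (algebraMap ℚ ℂ).injective).1 ?_)
    rw [map_div₀, map_intCast, map_intCast, hz, mul_div_cancel_left₀ _ (Int.cast_ne_zero.2 hG0)]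
    exact hzint
  have hfk : rootProd f = rootProd G * k := by
    have : (rootProd f : ℚ) = rootProd G * k := by
      rw [hk, mul_div_cancel₀ _ (Int.cast_ne_zero.2 hG0)]
    exact_mod_cast this
  have hk0 : k ≠ 0 := fun h => h0 (by rw [hfk, h, mul_zero])
  have hbound := FA.Thirteen.abs_discr_le_of_isIntegral (K := ℚ⟮θ⟯)
    (by rw [Fintype.card_fin, pb.finrank]) pb.basis
    (fun i => by rw [pb.basis_eq_pow]; exact hpint.pow i)
    (Algebra.discr_not_zero_of_basis ℚ pb.basis)
  rw [← abs_rootProd_minpoly pb hpint] at hbound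
  rw [← Int.cast_abs, ← Int.cast_abs, Int.cast_le] at hbound
  refine hbound.trans ?_
  rw [hfk, abs_mul]
  exact le_mul_of_one_le_right (abs_nonneg _) (Int.one_le_abs hk0)

/-- **One field with all the roots.** -/
theorem exists_common_field (N : ℕ) :
    ∃ L : IntermediateField ℚ ℂ, FiniteDimensional ℚ L ∧ ∀ f : ℤ[X], f.Monic → rootProd f ≠ 0 →
      (rootProd f).natAbs ≤ N → ∀ x ∈ (f.map (Int.castRingHom ℂ)).roots, x ∈ L := by
  classical
  set T := (NumberField.finite_of_discr_bdd ℂ N).toFinset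
  haveI : ∀ F : T, FiniteDimensional ℚ F.1.1 := fun F => F.1.2
  refine ⟨⨆ F : T, F.1.1, IntermediateField.finiteDimensional_iSup_of_finite,
    fun f hm h0 hN x hx => ?_⟩
  obtain ⟨hfd, hle⟩ := abs_discr_adjoin_le hm h0 hx
  have hmem : (⟨ℚ⟮x⟯, hfd⟩ : {F : IntermediateField ℚ ℂ // FiniteDimensional ℚ F}) ∈ T :=
    (Set.Finite.mem_toFinset _).2 (hle.trans (by rw [Int.abs_eq_natAbs]; exact_mod_cast hN))
  exact le_iSup (fun F : T => F.1.1) ⟨_, hmem⟩ (IntermediateField.mem_adjoin_simple_self ℚ x)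

/-- **Győry's theorem**: finitely many monic polynomials of given discriminant up to translation,
of whatever degree. -/
theorem exists_finite_polys {D : ℤ} (hD : D ≠ 0) :
    ∃ P : Set ℤ[X], P.Finite ∧
      ∀ f : ℤ[X], f.Monic → rootProd f = D → ∃ a : ℤ, f.comp (X + C a) ∈ P := by
  classical
  obtain ⟨L, hL, hroots⟩ := exists_common_field D.natAbs
  haveI : NumberField L := @NumberField.mk _ _ inferInstance hL
  obtain ⟨B, hB⟩ := exists_card_bound (c := (D : 𝓞 L)) (Int.cast_ne_zero.2 hD)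
  set poly : ∀ n, (Fin n → 𝓞 L) → ℂ[X] := fun n r =>
    ∏ i, (X - C (algebraMap L ℂ (r i : L)))
  refine ⟨(fun g : ℤ[X] => g.map (Int.castRingHom ℂ)) ⁻¹'
    ⋃ n ∈ range (B + 1), ⋃ k ∈ range (n + 1),
      poly n '' {r | diffProd r = (D : 𝓞 L) ∧ ∑ i, r i = (k : 𝓞 L)},
    Set.Finite.preimage (map_injective _ Int.cast_injective).injOn
      ((range (B + 1)).finite_toSet.biUnion fun n _ => (range (n + 1)).finite_toSet.biUnion
        fun k _ => (finite_tuples (Int.cast_ne_zero.2 hD) n _).image _),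
    fun f hm hf => ?_⟩
  set F := f.map (Int.castRingHom ℂ)
  have hnd := nodup_roots_of_rootProd (E := ℂ) hm (hf ▸ hD)
  set R := F.roots.toFinset
  set n := R.card
  set e : Fin n ≃ R := R.equivFin.symm
  set s : ℤ := -f.nextCoeff
  set a : ℤ := s / n
  have hFprod : F = ∏ i, (X - C (e i : ℂ)) := by
    conv_lhs => rw [(IsAlgClosed.splits F).eq_prod_roots_of_monic (hm.map _)]
    rw [Equiv.prod_comp e (fun y : R => X - C (y : ℂ)), prod_coe_sort R (fun y => X - C y),
      ← prod_map_roots hnd]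
  have hmemL : ∀ i, (e i : ℂ) ∈ L := fun i =>
    hroots f hm (hf ▸ hD) (by rw [hf]) _ (Multiset.mem_toFinset.1 (e i).2)
  set r : Fin n → 𝓞 L := fun i => (show 𝓞 L from ⟨⟨e i, hmemL i⟩,
    (isIntegral_algebraMap_iff (R := ℤ) (x := (⟨e i, hmemL i⟩ : L)) (algebraMap L ℂ).injective).1
      (isIntegral_of_mem_roots hm (Multiset.mem_toFinset.1 (e i).2))⟩) - (a : 𝓞 L)
  have hr : ∀ i, algebraMap L ℂ (r i : L) = (e i : ℂ) - a := fun i => by
    simp only [r, map_sub, map_intCast]
    rfl
  have hinj : Function.Injective fun x : 𝓞 L => algebraMap L ℂ (x : L) :=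
    (algebraMap L ℂ).injective.comp RingOfIntegers.coe_injective
  have hdiff : diffProd r = (D : 𝓞 L) := by
    refine hinj ?_
    dsimp only
    simp only [map_intCast]
    rw [← hf, cast_rootProd hm, diffProd]
    simp only [map_prod, map_sub, hr, sub_sub_sub_cancel_right]
    rw [prod_map_roots hnd, ← prod_coe_sort R, ← Equiv.prod_comp e]
    refine prod_congr rfl fun i _ => ?_
    rw [(IsAlgClosed.splits _).eval_root_derivative (hm.map _)
      (Multiset.mem_toFinset.1 (e i).2), ← Finset.prod_mk _ (hnd.erase _)]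
    refine prod_bij (fun j _ => (e j : ℂ)) (fun j hj => ?_)
      (fun j _ k _ h => e.injective (Subtype.ext h)) (fun y hy => ?_) fun j _ => rfl
    · rw [Finset.mem_mk, Multiset.Nodup.mem_erase_iff hnd]
      exact ⟨fun h => (mem_erase.1 hj).1 (e.injective (Subtype.ext h)),
        Multiset.mem_toFinset.1 (e j).2⟩
    · rw [Finset.mem_mk, Multiset.Nodup.mem_erase_iff hnd] at hy
      refine ⟨e.symm ⟨y, Multiset.mem_toFinset.2 hy.2⟩, mem_erase.2 ⟨fun h => hy.1 ?_, mem_univ _⟩,
        by simp⟩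
      rw [← h, Equiv.apply_symm_apply]
  have hsum : ∑ i, (e i : ℂ) = (s : ℂ) := by
    have h := (IsAlgClosed.splits F).nextCoeff_eq_neg_sum_roots_of_monic (hm.map _)
    rw [nextCoeff_map Int.cast_injective, eq_neg_iff_add_eq_zero, add_comm,
      ← eq_neg_iff_add_eq_zero] at h
    rw [Equiv.sum_comp e (fun y : R => (y : ℂ)), sum_coe_sort R fun y => y,
      sum_eq_multiset_sum, Multiset.toFinset_val, hnd.dedup, Multiset.map_id', h]
    simp [s]
  have hk : 0 ≤ s % (n : ℤ) := by
    rcases Nat.eq_zero_or_pos n with h | h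
    · have : IsEmpty (Fin n) := h ▸ Fin.isEmpty'
      have hs : s = 0 := by
        rw [univ_eq_empty, sum_empty] at hsum
        exact_mod_cast hsum.symm
      simp [hs]
    · exact Int.emod_nonneg _ (by omega)
  have hksum : ∑ i, r i = (((s % (n : ℤ)).toNat : ℕ) : 𝓞 L) := by
    refine hinj ?_
    simp only [map_sum, hr, sum_sub_distrib, sum_const, card_univ, Fintype.card_fin, nsmul_eq_mul,
      map_natCast, hsum]
    rw [← Int.cast_natCast (R := ℂ) (s % (n : ℤ)).toNat, Int.toNat_of_nonneg hk, Int.emod_def]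
    push_cast
    ring
  refine ⟨a, ?_⟩
  simp only [Set.mem_preimage, Set.mem_iUnion, Set.mem_image, exists_prop]
  refine ⟨n, mem_range.2 (Nat.lt_succ_of_le (hB n r hdiff)), (s % (n : ℤ)).toNat,
    mem_range.2 ?_, r, ⟨hdiff, hksum⟩, ?_⟩
  · rcases Nat.eq_zero_or_pos n with h | h
    · have : IsEmpty (Fin n) := h ▸ Fin.isEmpty'
      have hs : s = 0 := by
        rw [univ_eq_empty, sum_empty] at hsum
        exact_mod_cast hsum.symm
      simp [hs]
    · have := Int.emod_lt_of_pos s (show (0 : ℤ) < n by omega)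
      omega
  · rw [map_comp, show f.map (Int.castRingHom ℂ) = F from rfl, hFprod]
    simp only [Polynomial.prod_comp, sub_comp, X_comp, C_comp, poly, hr, Polynomial.map_add,
      Polynomial.map_X, Polynomial.map_C, map_sub, eq_intCast, Polynomial.map_intCast, map_intCast]
    refine prod_congr rfl fun i _ => ?_
    ring

/-- **Integers of bounded discriminant** are finitely many up to translation. -/
theorem exists_finite_elements (K : Type*) [Field K] [NumberField K] (N : ℕ) :
    ∃ Φ : Set (𝓞 K), Φ.Finite ∧ ∀ (α : 𝓞 K) (pb : PowerBasis ℚ K), pb.gen = (α : K) →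
      |Algebra.discr ℚ pb.basis| ≤ N → ∃ a : ℤ, α + a ∈ Φ := by
  classical
  choose P hP hPf using fun D : {D : ℤ // D ≠ 0} => exists_finite_polys D.2
  set T : Finset {D : ℤ // D ≠ 0} := (Finset.Icc (-(N : ℤ)) N).subtype _
  refine ⟨⋃ D ∈ T, ⋃ g ∈ P D, {x : 𝓞 K | g ≠ 0 ∧ aeval (x : K) g = 0},
    T.finite_toSet.biUnion fun D _ => (hP D).biUnion fun g _ => ?_, fun α pb hpb hN => ?_⟩
  · by_cases hg : g = 0
    · simp [hg]
    refine (Set.Finite.preimage RingOfIntegers.coe_injective.injOn
      (g.aroots K).toFinset.finite_toSet).subset fun x hx => ?_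
    exact Multiset.mem_toFinset.2 (mem_aroots.2 ⟨hg, hx.2⟩)
  have hint : IsIntegral ℤ pb.gen := hpb.symm ▸ α.isIntegral_coe
  set G := minpoly ℤ pb.gen
  have habs := abs_rootProd_minpoly pb hint
  have hne : rootProd G ≠ 0 := fun h => Algebra.discr_not_zero_of_basis ℚ pb.basis (by
    rw [h, Int.cast_zero, abs_zero, eq_comm, abs_eq_zero] at habs
    exact habs)
  rw [← habs] at hN
  have hN' : |rootProd G| ≤ (N : ℤ) := by exact_mod_cast hN
  obtain ⟨a, ha⟩ := hPf ⟨rootProd G, hne⟩ G (minpoly.monic hint) rfl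
  refine ⟨-a, Set.mem_biUnion (x := ⟨rootProd G, hne⟩) ?_ (Set.mem_biUnion ha ⟨?_, ?_⟩)⟩
  · exact Finset.mem_coe.2 (Finset.mem_subtype.2 (Finset.mem_Icc.2 (abs_le.1 hN')))
  · exact fun h => (minpoly.monic hint).ne_zero ((comp_eq_zero_iff.1 h).resolve_right fun h' => by
      have h2 := congrArg natDegree h'.2
      rw [natDegree_X_add_C, natDegree_C] at h2
      exact one_ne_zero h2)
  · have h1 : algebraMap ℤ K a = (a : K) := eq_intCast _ a
    rw [aeval_comp, aeval_add, aeval_X, aeval_C, h1, show ((α + ((-a : ℤ) : 𝓞 K) : 𝓞 K) : K) + a =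
      pb.gen by rw [hpb]; simp only [map_add, map_neg, map_intCast, Int.cast_neg]; ring]
    exact minpoly.aeval ℤ pb.gen

/-- **Power integral bases** are finitely many up to translation. -/
theorem exists_finite_monogenic (K : Type*) [Field K] [NumberField K] :
    ∃ Φ : Set (𝓞 K), Φ.Finite ∧ ∀ α : 𝓞 K, Algebra.adjoin ℤ {α} = ⊤ → ∃ a : ℤ, α + a ∈ Φ := by
  classical
  obtain ⟨Φ, hΦ, h⟩ := exists_finite_elements K (discr K).natAbs
  refine ⟨Φ, hΦ, fun α hα => ?_⟩
  set pbZ := PowerBasis.ofAdjoinEqTop' (Algebra.IsIntegral.isIntegral (R := ℤ) α) hα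
  set b := pbZ.basis.localizationLocalization ℚ (nonZeroDivisors ℤ) K
  let pb : PowerBasis ℚ K :=
    { gen := (α : K)
      dim := pbZ.dim
      basis := b
      basis_eq_pow := fun i => by
        rw [Module.Basis.localizationLocalization_apply, pbZ.basis_eq_pow,
          PowerBasis.ofAdjoinEqTop'_gen, map_pow] }
  refine h α pb rfl ?_
  rw [show Algebra.discr ℚ pb.basis = ((discr K : ℤ) : ℚ) from
    (Algebra.discr_localizationLocalization ℤ (nonZeroDivisors ℤ) K pbZ.basis).trans
      (congrArg (algebraMap ℤ ℚ) (NumberField.discr_eq_discr K pbZ.basis))]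
  rw [← Int.cast_abs, Int.abs_eq_natAbs]
  exact le_of_eq (Int.cast_natCast _)

/-- **Bounded index** bounds the discriminant of the powers. -/
theorem abs_discr_powers_le {K : Type*} [Field K] [NumberField K] {α : 𝓞 K}
    (pb : PowerBasis ℚ K) (hpb : pb.gen = (α : K)) {m : ℕ} (hm : m ≠ 0)
    (hidx : (Algebra.adjoin ℤ {α}).toSubring.toAddSubgroup.index = m) :
    |Algebra.discr ℚ pb.basis| ≤ |(m : ℚ) ^ (2 * pb.dim) * (discr K : ℚ)| := by
  classical
  set A := (Algebra.adjoin ℤ {α}).toSubring.toAddSubgroup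
  have hint : IsIntegral ℤ pb.gen := hpb.symm ▸ α.isIntegral_coe
  have hG : minpoly ℚ pb.gen = (minpoly ℤ pb.gen).map (algebraMap ℤ ℚ) :=
    minpoly.isIntegrallyClosed_eq_field_fractions' ℚ hint
  haveI : A.FiniteIndex := ⟨hidx.trans_ne hm⟩
  have hrepr : ∀ x : 𝓞 K, ∀ i, IsIntegral ℤ (pb.basis.repr ((m : K) * (x : K)) i) := fun x i => by
    have hmem : m • x ∈ Algebra.adjoin ℤ {α} := hidx ▸ A.nsmul_index_mem x
    obtain ⟨Q, hQ⟩ := (AlgHom.mem_range _).1
      ((Algebra.adjoin_singleton_eq_range_aeval ℤ α).le hmem)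
    rw [show (m : K) * (x : K) = aeval pb.gen Q by
      rw [hpb, ← nsmul_eq_mul, ← map_nsmul (algebraMap (𝓞 K) K), ← hQ]
      exact (aeval_algebraMap_apply K α Q).symm, aeval_eq_sum_range, map_sum,
      Finsupp.finsetSum_apply]
    refine IsIntegral.sum _ fun j _ => ?_
    rw [← Int.cast_smul_eq_zsmul ℚ, map_smul, Finsupp.smul_apply, smul_eq_mul]
    exact (isIntegral_algebraMap (R := ℤ) (A := ℚ) (x := Q.coeff j)).mul
      (PowerBasis.repr_gen_pow_isIntegral hint hG j i)
  have hcard : pb.dim = Fintype.card (Module.Free.ChooseBasisIndex ℤ (𝓞 K)) := by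
    rw [← pb.finrank, ← RingOfIntegers.rank, Module.finrank_eq_card_chooseBasisIndex]
  set e := Fintype.equivFinOfCardEq hcard.symm
  set ω : Fin pb.dim → K := (integralBasis K) ∘ e.symm
  set Pm : Matrix (Fin pb.dim) (Fin pb.dim) ℚ := pb.basis.toMatrix fun j => (m : K) * ω j
  have hP : ∀ i j, IsIntegral ℤ (Pm i j) := fun i j => by
    simp only [Pm, Module.Basis.toMatrix_apply, ω, Function.comp_apply, integralBasis_apply]
    exact hrepr _ i
  obtain ⟨k, hk⟩ := (IsIntegrallyClosed.isIntegral_iff (R := ℤ) (K := ℚ)).1 (IsIntegral.det hP)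
  have h := Algebra.discr_of_matrix_vecMul (A := ℚ) (pb.basis : Fin pb.dim → K) Pm
  rw [Module.Basis.toMatrix_map_vecMul] at h
  have hscale : Algebra.discr ℚ (fun j => (m : K) * ω j) =
      (m : ℚ) ^ (2 * pb.dim) * (discr K : ℚ) := by
    have h2 := Algebra.discr_of_matrix_vecMul (A := ℚ) ω (Matrix.diagonal fun _ => (m : ℚ))
    rw [show Matrix.vecMul ω
        ((Matrix.diagonal fun _ : Fin pb.dim => (m : ℚ)).map (algebraMap ℚ K)) =
      fun j => (m : K) * ω j from funext fun j => by
        rw [Matrix.diagonal_map (map_zero _), Matrix.vecMul_diagonal, mul_comm]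
        simp, Matrix.det_diagonal, prod_const, card_univ, Fintype.card_fin, ← pow_mul,
      mul_comm pb.dim] at h2
    rw [h2, coe_discr]
    congr 1
    exact Algebra.discr_reindex ℚ (integralBasis K) e
  rw [hscale] at h
  have hk0 : k ≠ 0 := fun h0 => by
    rw [← hk, h0, map_zero] at h
    rw [zero_pow two_ne_zero, zero_mul, mul_eq_zero] at h
    rcases h with h | h
    · exact pow_ne_zero _ (Nat.cast_ne_zero.2 hm) h
    · exact discr_ne_zero K (by exact_mod_cast h)
  rw [h, abs_mul, abs_pow, ← hk]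
  refine le_mul_of_one_le_left (abs_nonneg _) (one_le_pow₀ ?_)
  rw [eq_intCast, ← Int.cast_abs]
  exact_mod_cast Int.one_le_abs hk0

/-- **Bounded index**: finitely many generators up to translation. -/
theorem exists_finite_index (K : Type*) [Field K] [NumberField K] (M : ℕ) :
    ∃ Φ : Set (𝓞 K), Φ.Finite ∧ ∀ α : 𝓞 K,
      (Algebra.adjoin ℤ {α}).toSubring.toAddSubgroup.index ≠ 0 →
      (Algebra.adjoin ℤ {α}).toSubring.toAddSubgroup.index ≤ M → ∃ a : ℤ, α + a ∈ Φ := by
  classical
  obtain ⟨Φ, hΦ, h⟩ := exists_finite_elements K (M ^ (2 * Module.finrank ℚ K) * (discr K).natAbs)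
  refine ⟨Φ, hΦ, fun α h0 hle => ?_⟩
  have htop : ℚ⟮(α : K)⟯ = ⊤ := by
    refine eq_top_iff.2 fun x _ => ?_
    obtain ⟨n, hn0, hn⟩ : ∃ n : ℤ, n ≠ 0 ∧ IsIntegral ℤ ((n : K) * x) := by
      obtain ⟨n, hn, hy⟩ := ((IsFractionRing.isAlgebraic_iff ℤ ℚ K).2
        (Algebra.IsAlgebraic.isAlgebraic (R := ℚ) x)).exists_integral_multiple
      exact ⟨n, hn, by simpa [zsmul_eq_mul] using hy⟩
    have hmem := (Algebra.adjoin ℤ {α}).toSubring.toAddSubgroup.nsmul_index_mem ⟨_, hn⟩
    obtain ⟨Q, hQ⟩ := (AlgHom.mem_range _).1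
      ((Algebra.adjoin_singleton_eq_range_aeval ℤ α).le hmem)
    have hK := congrArg (algebraMap (𝓞 K) K) hQ
    rw [← aeval_algebraMap_apply, map_nsmul, nsmul_eq_mul,
      show algebraMap (𝓞 K) K ⟨_, hn⟩ = (n : K) * x from rfl, ← mul_assoc] at hK
    have hne : (((Algebra.adjoin ℤ {α}).toSubring.toAddSubgroup.index : ℕ) : K) * (n : K) ≠ 0 :=
      mul_ne_zero (Nat.cast_ne_zero.2 h0) (Int.cast_ne_zero.2 hn0)
    rw [← mul_div_cancel_left₀ x hne, ← hK]
    refine div_mem ?_ (mul_mem (_root_.natCast_mem _ _) (_root_.intCast_mem _ _))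
    rw [← aeval_map_algebraMap ℚ]
    exact algebra_adjoin_le_adjoin ℚ _ (aeval_mem_adjoin_singleton ℚ _)
  set pb := (IntermediateField.adjoin.powerBasis
    (Algebra.IsIntegral.isIntegral (R := ℚ) (α : K))).map
      ((IntermediateField.equivOfEq htop).trans IntermediateField.topEquiv)
  have hgen : pb.gen = (α : K) := rfl
  refine h α pb hgen ((abs_discr_powers_le pb hgen h0 rfl).trans ?_)
  rw [← pb.finrank, abs_mul, abs_pow, Nat.abs_cast, ← Int.cast_abs, Int.abs_eq_natAbs,
    Int.cast_natCast]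
  exact_mod_cast Nat.mul_le_mul_right _ (Nat.pow_le_pow_left hle _)

end FA.Gyory

end
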