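import Fermat.Agent.Faltings.Small
import Mathlib.RingTheory.Polynomial.ScaleRoots

/-!
# Numbers integral outside of `N` and fields generated by separated sets

`x` is integral outside of `N` if some `N ^ k * x` is an algebraic integer. If a finite Galois
stable set of such numbers has differences whose inverses are integral outside of `N`, inertia at
the primes not dividing `N` fixes it, so by Hermite and Minkowski it lies in one of finitely many
fields of given degree.
-/

set_option autoImplicit false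

noncomputable section

open Polynomial IntermediateField

local notation "Qb" => AlgebraicClosure ℚ
local notation "GQ" => AlgebraicClosure ℚ ≃ₐ[ℚ] AlgebraicClosure ℚ

namespace FA.Gyory

variable {F : Type*} [Field F]

/-- `x` becomes integral after multiplication with a power of `N`. -/
def NInt (N : ℕ) (x : F) : Prop := ∃ k : ℕ, IsIntegral ℤ ((N : F) ^ k * x)

variable {N : ℕ}

theorem NInt.of_isIntegral {x : F} (h : IsIntegral ℤ x) : NInt N x := ⟨0, by simpa using h⟩

theorem NInt.mono {M : ℕ} (hd : N ∣ M) {x : F} (h : NInt N x) : NInt M x := by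
  obtain ⟨k, hk⟩ := h
  obtain ⟨c, rfl⟩ := hd
  refine ⟨k, ?_⟩
  have := ((isIntegral_algebraMap (R := ℤ) (A := F) (x := (c : ℤ))).pow k).mul hk
  rw [eq_intCast, Int.cast_natCast, ← mul_assoc, ← mul_pow, mul_comm (c : F)] at this
  rwa [Nat.cast_mul]

theorem NInt.mul {x y : F} (hx : NInt N x) (hy : NInt N y) : NInt N (x * y) := by
  obtain ⟨k, hk⟩ := hx
  obtain ⟨l, hl⟩ := hy
  refine ⟨k + l, ?_⟩
  rw [show (N : F) ^ (k + l) * (x * y) = (N : F) ^ k * x * ((N : F) ^ l * y) by ring]
  exact hk.mul hl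

theorem NInt.neg {x : F} (hx : NInt N x) : NInt N (-x) := by
  obtain ⟨k, hk⟩ := hx
  exact ⟨k, by simpa using hk.neg⟩

theorem NInt.sub {x y : F} (hx : NInt N x) (hy : NInt N y) : NInt N (x - y) := by
  obtain ⟨k, hk⟩ := hx
  obtain ⟨l, hl⟩ := hy
  have hN : IsIntegral ℤ (N : F) := by simpa using isIntegral_algebraMap (R := ℤ) (x := (N : ℤ))
  refine ⟨k + l, ?_⟩
  rw [show (N : F) ^ (k + l) * (x - y) =
    (N : F) ^ l * ((N : F) ^ k * x) - (N : F) ^ k * ((N : F) ^ l * y) by ring]
  exact ((hN.pow l).mul hk).sub ((hN.pow k).mul hl)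

theorem NInt.prod {ι : Type*} (s : Finset ι) {x : ι → F} (h : ∀ i ∈ s, NInt N (x i)) :
    NInt N (∏ i ∈ s, x i) := by
  classical
  induction s using Finset.induction_on with
  | empty => exact .of_isIntegral (by simpa using isIntegral_one)
  | insert a s ha ih =>
    rw [Finset.prod_insert ha]
    exact (h a (Finset.mem_insert_self a s)).mul (ih fun i hi => h i (Finset.mem_insert_of_mem hi))

theorem nInt_map_iff {F' : Type*} [Field F'] (φ : F →+* F') {x : F} :
    NInt N (φ x) ↔ NInt N x := by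
  refine exists_congr fun k => ?_
  rw [← map_natCast φ, ← map_pow, ← map_mul]
  exact isIntegral_algHom_iff φ.toIntAlgHom φ.injective

/-- Roots of monic polynomials with coefficients integral outside `N`. -/
theorem NInt.of_root {f : F[X]} (hm : f.Monic) (hf : ∀ i, NInt N (f.coeff i)) {x : F}
    (hx : f.IsRoot x) : NInt N x := by
  classical
  choose k hk using hf
  set K := (Finset.range (f.natDegree + 1)).sup k
  refine ⟨K, ?_⟩
  set M : F := (N : F) ^ K
  set g := f.scaleRoots M
  have hcoeff : g ∈ lifts (algebraMap (integralClosure ℤ F) F) := by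
    rw [lifts_iff_coeff_lifts]
    intro i
    refine ⟨⟨g.coeff i, ?_⟩, rfl⟩
    show IsIntegral ℤ (g.coeff i)
    rw [coeff_scaleRoots]
    rcases lt_trichotomy i f.natDegree with h | h | h
    · have hle : k i ≤ K * (f.natDegree - i) :=
        (Finset.le_sup (f := k) (Finset.mem_range.2 (by omega))).trans
          (Nat.le_mul_of_pos_right _ (by omega))
      obtain ⟨c, hc⟩ := Nat.exists_eq_add_of_le hle
      have hN : IsIntegral ℤ ((N : F) ^ c) := by
        simpa using (isIntegral_algebraMap (R := ℤ) (A := F) (x := (N : ℤ))).pow c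
      rw [← pow_mul, hc, show f.coeff i * (N : F) ^ (k i + c) =
        (N : F) ^ c * ((N : F) ^ k i * f.coeff i) by ring]
      exact hN.mul (hk i)
    · rw [h, hm.coeff_natDegree, Nat.sub_self, pow_zero, one_mul]
      exact isIntegral_one
    · rw [coeff_eq_zero_of_natDegree_lt h, zero_mul]
      exact isIntegral_zero
  obtain ⟨q, hq, -, hqm⟩ := lifts_and_degree_eq_and_monic hcoeff ((monic_scaleRoots_iff M).2 hm)
  refine isIntegral_trans (A := integralClosure ℤ F) _ ⟨q, hqm, ?_⟩
  rw [← eval_map, hq, scaleRoots_eval_mul, hx, mul_zero]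

/-- Finitely many algebraic numbers are integral outside of some `N`. -/
theorem exists_nInt [CharZero F] [Algebra.IsAlgebraic ℚ F] (T : Finset F) :
    ∃ N : ℕ, N ≠ 0 ∧ ∀ x ∈ T, NInt N x := by
  classical
  have hex : ∀ x : F, ∃ n : ℕ, n ≠ 0 ∧ IsIntegral ℤ ((n : F) * x) := fun x => by
    obtain ⟨n, hn, hy⟩ := ((IsFractionRing.isAlgebraic_iff ℤ ℚ F).2
      (Algebra.IsAlgebraic.isAlgebraic (R := ℚ) x)).exists_integral_multiple
    rw [zsmul_eq_mul] at hy
    refine ⟨n.natAbs, Int.natAbs_ne_zero.2 hn, ?_⟩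
    rcases Int.natAbs_eq n with h | h <;> rw [h] at hy
    · rwa [Int.cast_natCast] at hy
    · simpa [-Nat.cast_natAbs] using hy.neg
  choose n hn hi using hex
  refine ⟨∏ x ∈ T, n x, Finset.prod_ne_zero_iff.2 fun x _ => hn x,
    fun x hx => NInt.mono (Finset.dvd_prod_of_mem n hx) ⟨1, by simpa using hi x⟩⟩

/-- A set of numbers with differences units outside of `N`. -/
def Separated (N : ℕ) (R : Finset F) : Prop :=
  ∀ x ∈ R, NInt N x ∧ ∀ y ∈ R, y ≠ x → NInt N (y - x)⁻¹

theorem mem_of_nInt {q : ℕ} (hq : q.Prime) (hqN : ¬q ∣ N) {A : ValuationSubring Qb}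
    (hA : A.LiesOverPrime q) {x : Qb} (hx : NInt N x) : x ∈ A := by
  obtain ⟨k, hk⟩ := hx
  have hint : ∀ y : Qb, IsIntegral ℤ y → A.valuation y ≤ 1 := fun y hy =>
    (A.valuation_le_one_iff y).2 (FA.Deform.zbar_mem_valuationSubring A ⟨y, hy⟩)
  have hnat : ∀ m : ℕ, A.valuation (m : Qb) ≤ 1 := fun m => hint _ (by
    simpa using isIntegral_algebraMap (R := ℤ) (A := Qb) (x := (m : ℤ)))
  have hN : A.valuation (N : Qb) = 1 := by
    refine le_antisymm (hnat N) (le_of_not_gt fun hlt => ?_)
    have hco : (q : ℤ).gcd N = 1 := by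
      rw [Int.gcd_natCast_natCast]
      exact (hq.coprime_iff_not_dvd.2 hqN)
    have hz : ∀ m : ℤ, A.valuation (m : Qb) ≤ 1 := fun m => hint _ (by
      simpa using isIntegral_algebraMap (R := ℤ) (A := Qb) (x := m))
    have h1 : (1 : Qb) = (q : Qb) * ((q : ℤ).gcdA N : Qb) + (N : Qb) * ((q : ℤ).gcdB N : Qb) := by
      have h2 := Int.gcd_eq_gcd_ab (q : ℤ) N
      rw [hco, Nat.cast_one] at h2
      exact_mod_cast h2
    have h3 : A.valuation 1 < 1 := by
      rw [h1]
      refine Valuation.map_add_lt _ ?_ ?_ <;> rw [map_mul]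
      · exact mul_lt_one_of_lt_of_le (A.mem_nonunits_iff.1 hA) (hz _)
      · exact mul_lt_one_of_lt_of_le hlt (hz _)
    rw [map_one] at h3
    exact lt_irrefl _ h3
  rw [← A.valuation_le_one_iff]
  have h := hint _ hk
  rwa [map_mul, map_pow, hN, one_pow, one_mul] at h

/-- **Inertia fixes separated sets.** -/
theorem inertia_fix {R : Finset Qb} (hR : Separated N R) {q : ℕ} (hq : q.Prime) (hqN : ¬q ∣ N)
    {A : ValuationSubring Qb} (hA : A.LiesOverPrime q) {σ : GQ}
    (hσ : σ ∈ A.inertiaSubgroupIn ℚ) {x : Qb} (hx : x ∈ R) (hσx : σ x ∈ R) : σ x = x := by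
  by_contra hne
  have h1 := (FA.Local.inert_of_mem_inertiaSubgroupIn A hσ).sub_lt x
    ((A.valuation_le_one_iff _).2 (mem_of_nInt hq hqN hA (hR x hx).1))
  have h2 := (A.valuation_le_one_iff _).2 (mem_of_nInt hq hqN hA ((hR x hx).2 _ hσx hne))
  have h3 := mul_lt_one_of_lt_of_le h1 h2
  rw [← map_mul, mul_inv_cancel₀ (sub_ne_zero.2 hne), map_one] at h3
  exact lt_irrefl _ h3

/-- **Finitely many fields** of bounded degree are fixed by inertia outside of `N`. -/
theorem exists_field_above (N m : ℕ) :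
    ∃ L : IntermediateField ℚ Qb, FiniteDimensional ℚ L ∧
      ∀ E : IntermediateField ℚ Qb, FiniteDimensional ℚ E → Module.finrank ℚ E ≤ m →
        FA.Faltings.InertiaOutside N.primeFactors E.fixingSubgroup → E ≤ L := by
  classical
  have hfin : {E : IntermediateField ℚ Qb | FiniteDimensional ℚ E ∧ Module.finrank ℚ E ≤ m ∧
      FA.Faltings.InertiaOutside N.primeFactors E.fixingSubgroup}.Finite := by
    refine Set.Finite.of_finite_image (f := IntermediateField.fixingSubgroup)
      ((FA.Faltings.finite_openSubgroups N.primeFactors m).subset ?_) fun E _ E' _ e => ?_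
    · rintro _ ⟨E, ⟨hfd, hdeg, hin⟩, rfl⟩
      exact ⟨IntermediateField.fixingSubgroup_isOpen E,
        by rwa [← IntermediateField.finrank_eq_fixingSubgroup_index], hin⟩
    · rw [← InfiniteGalois.fixedField_fixingSubgroup E, e, InfiniteGalois.fixedField_fixingSubgroup]
  set T := hfin.toFinset
  haveI : ∀ E : T, FiniteDimensional ℚ (E : IntermediateField ℚ Qb) := fun E =>
    ((Set.Finite.mem_toFinset _).1 E.2).1
  exact ⟨⨆ E : T, (E : IntermediateField ℚ Qb), finiteDimensional_iSup_of_finite,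
    fun E h1 h2 h3 => le_iSup (fun E : T => (E : IntermediateField ℚ Qb))
      ⟨E, (Set.Finite.mem_toFinset _).2 ⟨h1, h2, h3⟩⟩⟩

/-- A field fixed by the automorphisms fixing a number. -/
theorem mem_fixingSubgroup_adjoin {σ : GQ} {x : Qb} (h : σ x = x) :
    σ ∈ (ℚ⟮x⟯).fixingSubgroup := by
  rw [IntermediateField.mem_fixingSubgroup_iff]
  refine (IntermediateField.forall_mem_adjoin_smul_eq_self_iff ℚ σ).2 fun y hy => ?_
  rw [Set.mem_singleton_iff.1 hy]
  exact h

end FA.Gyory

end
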