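import Fermat.Agent.Gyory.Classes

/-!
# Representatives of the classes of given discriminant over the `S`-integers

Two polynomials whose labelled roots have the same ratios of differences and the same Galois
permutations differ by `x ↦ ε x + a` with `ε` and `a` in the base field; then `ε` is an `S`-unit as
the discriminants differ by one and `a` is an `S`-integer as it is integral over them.
-/

set_option autoImplicit false
set_option linter.style.haveILetI false

noncomputable section

open Polynomial NumberField IsDedekindDomain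

local notation "Qb" => AlgebraicClosure ℚ
local notation "GQ" => AlgebraicClosure ℚ ≃ₐ[ℚ] AlgebraicClosure ℚ

namespace FA.Gyory

variable {K : Type*} [Field K] [NumberField K] {S : Set (HeightOneSpectrum (𝓞 K))} {n : ℕ} {D : K}

theorem exists_perm (φ : K →ₐ[ℚ] Qb) {f : K[X]} {r : Fin n → Qb}
    (hmap : f.map φ.toRingHom = ∏ i, (X - C (r i))) {σ : GQ} (hσ : ∀ k, σ (φ k) = φ k) (i : Fin n) :
    ∃ j, σ (r i) = r j := by
  have hev : ((f.map φ.toRingHom).map σ.toRingHom).eval (σ (r i)) = 0 := by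
    rw [eval_map]
    refine (eval₂_at_apply σ.toRingHom _).trans ?_
    rw [hmap, eval_prod, Finset.prod_eq_zero (Finset.mem_univ i) (by simp), map_zero]
  rw [Polynomial.map_map, show σ.toRingHom.comp φ.toRingHom = φ.toRingHom from RingHom.ext hσ,
    hmap, eval_prod, Finset.prod_eq_zero_iff] at hev
  obtain ⟨j, -, hj⟩ := hev
  rw [eval_sub, eval_X, eval_C, sub_eq_zero] at hj
  exact ⟨j, hj⟩

/-- Two polynomials with the same invariants are equivalent. -/
theorem sEquiv_of_roots (φ : K →ₐ[ℚ] Qb) (hD : D ≠ 0) {f g : K[X]}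
    (hf : Admissible S n D f) (hg : Admissible S n D g) {r r' : Fin n → Qb} {s s' : ℤ}
    (hmap : f.map φ.toRingHom = ∏ i, (X - C (r i)))
    (hmap' : g.map φ.toRingHom = ∏ i, (X - C (r' i)))
    (hs : s.natAbs = 1) (hdiff : diffProd r = (s : Qb) * φ f.discr)
    (hs' : s'.natAbs = 1) (hdiff' : diffProd r' = (s' : Qb) * φ g.discr)
    {i₀ i₁ : Fin n} (h01 : i₀ ≠ i₁) (hr : Function.Injective r) (hr' : Function.Injective r')
    (hratio : ∀ j, (r j - r i₀) / (r i₁ - r i₀) = (r' j - r' i₀) / (r' i₁ - r' i₀))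
    (hperm : ∀ σ : GQ, (∀ k, σ (φ k) = φ k) → ∀ i j, σ (r' i) = r' j → σ (r i) = r j) :
    SEquiv S n f g := by
  obtain ⟨hfm, hfd, hfc, uf, huf, hfD⟩ := hf
  obtain ⟨hgm, hgd, hgc, ug, hug, hgD⟩ := hg
  have hne : r i₁ - r i₀ ≠ 0 := sub_ne_zero.2 fun h => h01 (hr h).symm
  have hne' : r' i₁ - r' i₀ ≠ 0 := sub_ne_zero.2 fun h => h01 (hr' h).symm
  set τ := (r i₁ - r i₀) / (r' i₁ - r' i₀)
  set b := r i₀ - τ * r' i₀
  have hlin : ∀ j, r j = τ * r' j + b := fun j => by
    have h := hratio j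
    rw [div_eq_div_iff hne hne'] at h
    simp only [b, τ]
    field_simp
    linear_combination h
  have hfixed : ∀ σ : GQ, (∀ k, σ (φ k) = φ k) → σ τ = τ ∧ σ b = b := by
    intro σ hσ
    obtain ⟨p, hp⟩ := exists_perm φ hmap' hσ i₀
    obtain ⟨q, hq⟩ := exists_perm φ hmap' hσ i₁
    have hp' := hperm σ hσ _ _ hp
    have hq' := hperm σ hσ _ _ hq
    have hpq : r' q - r' p ≠ 0 := by
      rw [← hp, ← hq, ← map_sub]
      exact (map_ne_zero σ).2 hne'
    have hτ : σ τ = τ := by
      simp only [τ, map_div₀, map_sub, hp, hq, hp', hq']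
      rw [hlin q, hlin p, show τ * r' q + b - (τ * r' p + b) = τ * (r' q - r' p) by ring,
        mul_div_assoc, div_self hpq, mul_one]
    refine ⟨hτ, ?_⟩
    simp only [b, map_sub, map_mul, hτ, hp, hp', hlin p]
    ring
  obtain ⟨t, ht⟩ := mem_range_of_fixed φ fun σ hσ => (hfixed σ hσ).1
  obtain ⟨a, ha⟩ := mem_range_of_fixed φ fun σ hσ => (hfixed σ hσ).2
  have ht0 : t ≠ 0 := fun h => div_ne_zero hne hne' (by rw [h, map_zero] at ht; exact ht.symm)
  have hτ0 : τ ≠ 0 := div_ne_zero hne hne'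
  -- the factor is a unit outside of `S`
  set M := ∑ i : Fin n, (Finset.univ.erase i).card
  have hM : M ≠ 0 := fun h => by
    have h1 := Finset.sum_eq_zero_iff.1 h i₀ (Finset.mem_univ _)
    rw [Finset.card_eq_zero] at h1
    exact Finset.notMem_empty i₁ (h1 ▸ Finset.mem_erase.2 ⟨h01.symm, Finset.mem_univ _⟩)
  have hpow : diffProd r = τ ^ M * diffProd r' := by
    rw [← Finset.prod_pow_eq_pow_sum]
    simp only [diffProd, ← Finset.prod_mul_distrib, ← Finset.prod_const]
    refine Finset.prod_congr rfl fun i _ => Finset.prod_congr rfl fun j _ => ?_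
    rw [hlin i, hlin j]
    ring
  have hK : (s : K) * (uf : K) = t ^ M * ((s' : K) * (ug : K)) := by
    refine mul_right_cancel₀ hD (φ.toRingHom.injective ?_)
    rw [hdiff, hdiff', hfD, hgD, ← ht] at hpow
    simp only [AlgHom.toRingHom_eq_coe, RingHom.coe_coe, map_mul, map_pow, map_intCast] at hpow ⊢
    linear_combination hpow
  have htv : ∀ v ∉ S, v.valuation K t = 1 := fun v hv => by
    have hone : ∀ z : ℤ, z.natAbs = 1 → v.valuation K (z : K) = 1 := fun z hz => by
      rcases Int.natAbs_eq_iff.1 hz with h | h <;> simp [h]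
    have h := congrArg (v.valuation K) hK
    rw [map_mul, map_mul, map_mul, map_pow, hone s hs, hone s' hs', huf v hv, hug v hv, mul_one,
      mul_one] at h
    rcases lt_trichotomy (v.valuation K t) 1 with h' | h' | h'
    · exact absurd h.symm (pow_lt_one₀ zero_le h' hM).ne
    · exact h'
    · exact absurd h (one_lt_pow₀ h' hM).ne
  have htS : Units.mk0 t ht0 ∈ S.unit K := fun v hv => htv v hv
  have hroot : ∀ {h : K[X]} {x : Fin n → Qb}, h.map φ.toRingHom = ∏ i, (X - C (x i)) → ∀ i,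
      (h.map φ.toRingHom).IsRoot (x i) := fun {h x} hh i => by
    rw [hh, IsRoot.def, eval_prod]
    exact Finset.prod_eq_zero (Finset.mem_univ i) (by simp)
  refine ⟨Units.mk0 t ht0, htS, a, mem_integer_of_roots φ hfm hfc hgm hgc
    (fun v hv => (htv v hv).le) (hroot hmap i₀) (hroot hmap' i₀) (by rw [ht, ha]; exact hlin i₀),
    Polynomial.map_injective φ.toRingHom φ.toRingHom.injective ?_⟩
  rw [Polynomial.map_mul, map_comp, hmap', hmap, Polynomial.map_C, Polynomial.map_mul,
    Polynomial.map_sub, Polynomial.map_X, Polynomial.map_C, Polynomial.map_C, Units.val_mk0,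
    map_pow, map_inv₀, show φ.toRingHom t = τ from ht, show φ.toRingHom a = b from ha,
    Polynomial.prod_comp, C_pow]
  rw [show C τ ^ n = ∏ _i : Fin n, C τ by simp, ← Finset.prod_mul_distrib]
  refine Finset.prod_congr rfl fun i _ => ?_
  rw [sub_comp, X_comp, C_comp, hlin i, C_add, mul_sub, ← mul_assoc, ← C_mul,
    mul_inv_cancel₀ hτ0, C_1, one_mul, C_mul]
  ring

/-- **Győry's theorem over the `S`-integers**: finitely many classes of monic polynomials of
degree `n` with given discriminant up to an `S`-unit. -/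
theorem exists_finite_sClasses (hS : S.Finite) (n : ℕ) (hD : D ≠ 0) :
    ∃ P : Finset K[X], ∀ f, Admissible S n D f → ∃ g ∈ P, SEquiv S n f g := by
  classical
  rcases lt_or_ge n 2 with hn | hn
  · by_cases hex : ∃ g, Admissible S n D g
    · obtain ⟨g, hgm, hgd, hgc, -⟩ := hex
      refine ⟨{g}, fun f hf => ⟨g, Finset.mem_singleton_self _, 1, one_mem _,
        g.coeff 0 - f.coeff 0, sub_mem (hgc 0) (hf.2.2.1 0), ?_⟩⟩
      rcases (by omega : n = 0 ∨ n = 1) with rfl | rfl
      · rw [hgm.natDegree_eq_zero.1 hgd, hf.1.natDegree_eq_zero.1 hf.2.1]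
        simp
      · rw [hgm.eq_X_add_C hgd, hf.1.eq_X_add_C hf.2.1]
        simp
        ring
    · exact ⟨∅, fun f hf => absurd ⟨f, hf⟩ hex⟩
  set φ : K →ₐ[ℚ] Qb := IsAlgClosed.lift
  obtain ⟨L, hL, N, hN, hroots⟩ := exists_roots_field φ hS (by omega : 0 < n) hD
  haveI : NumberField L := @NumberField.mk _ _ inferInstance hL
  obtain ⟨T, hT⟩ := exists_isSUnit L hN
  obtain ⟨E, hE⟩ := exists_ratio_set T
  choose r hrinj hrmap hrdiff hrint using hroots
  set i₀ : Fin n := ⟨0, by omega⟩
  set i₁ : Fin n := ⟨1, by omega⟩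
  have h01 : i₀ ≠ i₁ := by simp [i₀, i₁, Fin.ext_iff]
  set π : (Fin n → L) → (L →ₐ[ℚ] Qb) → Fin n → Fin n := fun x e i =>
    if h : ∃ j, e (x i) = (x j : Qb) then h.choose else i
  set data : ∀ f, Admissible S n D f → (Fin n → L) × ((L →ₐ[ℚ] Qb) → Fin n → Fin n) := fun f hf =>
    (fun j => (r f hf j - r f hf i₀) / (r f hf i₁ - r f hf i₀), π (r f hf))
  set Data := (Fintype.piFinset fun _ : Fin n => insert 0 (insert 1 E)) ×ˢ
    (Finset.univ : Finset ((L →ₐ[ℚ] Qb) → Fin n → Fin n))
  have hu : ∀ f (hf : Admissible S n D f) i j, i ≠ j → IsSUnit T (r f hf j - r f hf i) :=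
    fun f hf i j hij => hT _ (sub_ne_zero.2 fun h => hij (hrinj f hf h).symm)
      (hrint f hf i j hij).1 (hrint f hf i j hij).2
  have hmem : ∀ f hf, data f hf ∈ Data := fun f hf => by
    refine Finset.mem_product.2 ⟨Fintype.mem_piFinset.2 fun j => ?_, Finset.mem_univ _⟩
    simp only [data]
    by_cases hj0 : j = i₀
    · rw [hj0, sub_self, zero_div]
      exact Finset.mem_insert_self _ _
    by_cases hj1 : j = i₁
    · rw [hj1, div_self (hu f hf _ _ h01).ne_zero]
      exact Finset.mem_insert_of_mem (Finset.mem_insert_self _ _)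
    exact Finset.mem_insert_of_mem (Finset.mem_insert_of_mem
      (hE _ _ _ (hu f hf _ _ h01) (hu f hf _ _ fun h => hj0 h.symm)
        (hu f hf _ _ fun h => hj1 h.symm)))
  set pick : _ → K[X] := fun d =>
    if h : ∃ f, ∃ hf, data f hf = d then h.choose else 0
  refine ⟨Data.image pick, fun f hf => ?_⟩
  have hex : ∃ g, ∃ hg, data g hg = data f hf := ⟨f, hf, rfl⟩
  obtain ⟨g, hg, hd, hpick⟩ : ∃ g, ∃ hg, data g hg = data f hf ∧ pick (data f hf) = g :=
    ⟨hex.choose, hex.choose_spec.1, hex.choose_spec.2, by simp [pick, dif_pos hex]⟩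
  refine ⟨g, hpick ▸ Finset.mem_image_of_mem _ (hmem f hf), ?_⟩
  obtain ⟨s, hs, hsd⟩ := hrdiff f hf
  obtain ⟨s', hs', hsd'⟩ := hrdiff g hg
  refine sEquiv_of_roots φ hD hf hg (hrmap f hf) (hrmap g hg) hs hsd hs' hsd' h01
    (fun i j h => hrinj f hf (Subtype.ext h)) (fun i j h => hrinj g hg (Subtype.ext h))
    (fun j => ?_) fun σ hσ i j hij => ?_
  · have h := congrArg (fun p => ((p.1 j : L) : Qb)) hd
    simpa [data] using h.symm
  · set e : L →ₐ[ℚ] Qb := (σ.toRingHom.comp L.val.toRingHom).toRatAlgHom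
    have hf' : ∃ k, e (r f hf i) = (r f hf k : Qb) := exists_perm φ (hrmap f hf) hσ i
    have hg' : ∃ k, e (r g hg i) = (r g hg k : Qb) := ⟨j, hij⟩
    have hk : hg'.choose = hf'.choose := by
      have h := congrFun (congrFun (congrArg Prod.snd hd) e) i
      simp only [data, π] at h
      rwa [dif_pos hg', dif_pos hf'] at h
    have hj : hg'.choose = j := hrinj g hg (Subtype.ext (hg'.choose_spec.symm.trans hij))
    exact (hk.symm.trans hj) ▸ hf'.choose_spec

end FA.Gyory

end
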